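/-
T1B / brick H (helper13's route, report 993), slice H-GEOM (helper33), file 3:
THE CUSP `∞` IN THE TWO-CHART MODEL (`ES/RED/TwoCharts8`, coefficientwise charts
`GaloisInst21.CoeffChart`).

`T : TwoCharts A hx F̃_M` with `c1 : CoeffChart T.S1` and `hinf : T.S1.InChart ∞`
(`inChart1_infty`: this holds when `T.S1.s = t⁻¹`, `t = tF M hmem` the Hauptmodul):

* `red_mem_inftyBar`, `chi_infty_eq_coeff` : for `b ∈ B₁`: `red b ∈ O_∞̄`, `χ_∞ b = coeff_0 (red b)`;
* `r_infty` **(G1)** : `T.r ∞ = ∞̄`;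
* `inChart1_of_r_eq`, `chi_eq_of_r_eq` **(G2)** : `T.r z = ∞̄ ⇒ z ∈ chart 1 ∧ χ_z = χ_∞`;
* `exists_unit_fraction` : a unit `ū` of `O_∞̄` is `red a / red d`, `χ_∞ a ≠ 0 ≠ χ_∞ d`;
* `ord_eq_zero_of_chi_ne_zero` : `χ_z a ≠ 0 ⇒ ord_z a = 0`;
* `exists_lift` **(G4)** : every `ū ∈ F̃ˣ` with `ord_∞̄ ū = 0` is the reduction of an `A`-integral
  `y ∈ A((q))`, `ũ = coeffMap A.subtype y ∈ F`, with NO zero or pole in the residue disc of `∞`:
  `∀ z, T.r z = ∞̄ → ord_z ũ = 0`.
-/
import Mathlib
import Fermat.Agent.T1B.HGeom33.InfBar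
import Fermat.Agent.ES.RED.TwoCharts8
import Fermat.Agent.ES.RED.GaloisInst21
import Fermat.Agent.ES.RED.SpecialInv25

set_option autoImplicit false
set_option linter.unusedSectionVars false
set_option linter.style.haveILetI false
set_option synthInstance.maxHeartbeats 400000

open AlgebraicCurve ModularCurve HahnSeries
open Fermat.Agent.X0 Fermat.Agent.X0.FF

open scoped Fermat.Agent.T1B.HGeom33.InfBar

noncomputable section

namespace Fermat.Agent.T1B.HGeom33.Chart

open Fermat.Agent.ES.RED.PlaceValue13 Fermat.Agent.ES.RED.Contract8 Fermat.Agent.ES.RED.TwoCharts8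
  Fermat.Agent.ES.RED.GaloisInst21 Fermat.Agent.MW.NCA61.InfPlace
  Fermat.Agent.T1B.HGeom33.InfBar

/-! ### Laurent series lemmas -/

section Series

variable {R S : Type*} [CommRing R] [CommRing S]

/-- coefficientwise maps do not lower the order below `0`. -/
theorem order_coeffMap_nonneg (φ : R →+* S) {Y : LaurentSeries R} (hY : 0 ≤ Y.order) :
    0 ≤ (coeffMap φ Y).order := by
  by_cases h0 : coeffMap φ Y = 0
  · rw [h0, HahnSeries.order_zero]
  · have h1 := coeff_order_ne_zero' h0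
    rw [coeffMap_coeff] at h1
    have h2 : Y.coeff (coeffMap φ Y).order ≠ 0 := fun h => h1 (by rw [h, map_zero])
    exact le_trans hY (HahnSeries.order_le_of_coeff_ne_zero h2)

/-- the coefficients of negative index of a Laurent series of order `≥ 0` vanish. -/
theorem coeff_neg_of_order_nonneg {Y : LaurentSeries R} (hY : 0 ≤ Y.order) :
    ∀ n : ℤ, n < 0 → Y.coeff n = 0 := fun _ hn =>
  HahnSeries.coeff_eq_zero_of_lt_order (lt_of_lt_of_le hn hY)

/-- a Laurent series without polar part is a power series. -/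
theorem exists_powerSeries {Y : LaurentSeries R} (hY : ∀ n : ℤ, n < 0 → Y.coeff n = 0) :
    ∃ P : PowerSeries R, Y = HahnSeries.ofPowerSeries ℤ R P ∧
      PowerSeries.constantCoeff P = Y.coeff 0 := by
  refine ⟨PowerSeries.mk fun n => Y.coeff (n : ℤ), ?_, ?_⟩
  · ext n
    rw [PowerSeries.coeff_coe]
    split_ifs with hn
    · exact hY n hn
    · rw [PowerSeries.coeff_mk]
      congr 1
      rw [not_lt] at hn
      exact (Int.natAbs_of_nonneg hn).symm
  · rw [← PowerSeries.coeff_zero_eq_constantCoeff_apply, PowerSeries.coeff_mk, Nat.cast_zero]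

theorem coeff_ofPowerSeries_neg (P : PowerSeries R) (n : ℤ) (hn : n < 0) :
    (HahnSeries.ofPowerSeries ℤ R P).coeff n = 0 := by
  rw [PowerSeries.coeff_coe, if_pos hn]

theorem coeff_ofPowerSeries_zero (P : PowerSeries R) :
    (HahnSeries.ofPowerSeries ℤ R P).coeff 0 = PowerSeries.constantCoeff P := by
  rw [PowerSeries.coeff_coe, if_neg (lt_irrefl (0 : ℤ)), Int.natAbs_zero,
    PowerSeries.coeff_zero_eq_constantCoeff_apply]

/-- products of Laurent series without polar parts. -/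
theorem ps_mul {Y Z : LaurentSeries R} (hY : ∀ n : ℤ, n < 0 → Y.coeff n = 0)
    (hZ : ∀ n : ℤ, n < 0 → Z.coeff n = 0) :
    (∀ n : ℤ, n < 0 → (Y * Z).coeff n = 0) ∧ (Y * Z).coeff 0 = Y.coeff 0 * Z.coeff 0 := by
  obtain ⟨P, hP, hP0⟩ := exists_powerSeries hY
  obtain ⟨Q, hQ, hQ0⟩ := exists_powerSeries hZ
  rw [← hP0, ← hQ0, hP, hQ, ← map_mul]
  exact ⟨fun n hn => coeff_ofPowerSeries_neg _ n hn, by
    rw [coeff_ofPowerSeries_zero, map_mul]⟩

/-- a Laurent series without polar part and with unit constant coefficient has an inverse of the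
same shape. -/
theorem exists_mul_eq_one {Y : LaurentSeries R} (hY : ∀ n : ℤ, n < 0 → Y.coeff n = 0)
    (hu : IsUnit (Y.coeff 0)) :
    ∃ Z : LaurentSeries R, Y * Z = 1 ∧ (∀ n : ℤ, n < 0 → Z.coeff n = 0) ∧ IsUnit (Z.coeff 0) := by
  obtain ⟨u, hu⟩ := hu
  obtain ⟨P, hP, hP0⟩ := exists_powerSeries hY
  have hc : PowerSeries.constantCoeff P = (u : R) := by rw [hP0, hu]
  refine ⟨HahnSeries.ofPowerSeries ℤ R (PowerSeries.invOfUnit P u), ?_, ?_, ?_⟩
  · rw [hP, ← map_mul, PowerSeries.mul_invOfUnit P u hc, map_one]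
  · exact fun n hn => coeff_ofPowerSeries_neg _ n hn
  · rw [coeff_ofPowerSeries_zero, PowerSeries.constantCoeff_invOfUnit]
    exact Units.isUnit _

end Series

/-! ### the cusp `∞` in a coefficientwise chart -/

/-- `ℚbar`. -/
local notation "Qb" => AlgebraicClosure ℚ

variable {M : ℕ} [NeZero M] {A : ValuationSubring Qb}
  {x : FF M} {hx : IsGen Qb x}

section OneChart

variable (S : ChartSpec A hx ↥(modularFunctionFieldFullC (kA A) M))
  (cS : CoeffChart (F₀ := modularFunctionFieldFull M) S)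
  (hinf : S.InChart (inftyPlace M))

include cS hinf

/-- the `A`-expansion of an element of the chart ring has order `≥ 0` when `∞` lies in the chart. -/
theorem order_series_nonneg (b : ↥S.B) (Y : LaurentSeries ↥A)
    (hY : coeffMap A.subtype Y = ((b : FF M) : LaurentSeries Qb)) : 0 ≤ Y.order := by
  have h1 : (b : FF M) ∈ (inftyPlace M).toValuationSubring := S.mem_place _ hinf b b.2
  have h2 := (mem_inftyPlace_iff' M (b : FF M)).mp h1
  rw [← hY, order_coeffMap_of_injective _ Subtype.val_injective] at h2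
  exact h2

/-- `red b ∈ O_∞̄`. -/
theorem red_mem_inftyBar (b : ↥S.B) : S.red b ∈ (inftyBar (kA A) M).toValuationSubring := by
  obtain ⟨Y, hY⟩ := cS.exists_series b
  rw [mem_inftyBar_iff', cS.red_eq b Y hY]
  exact order_coeffMap_nonneg _ (order_series_nonneg S cS hinf b Y hY)

/-- `b(∞)` is the constant coefficient of the `A`-expansion. -/
theorem ev_infty_eq (b : ↥S.B) (Y : LaurentSeries ↥A)
    (hY : coeffMap A.subtype Y = ((b : FF M) : LaurentSeries Qb)) :
    S.ev (inftyPlace M) hinf b = Y.coeff 0 := by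
  apply Subtype.ext
  have h := valueHom_inftyPlace M hx (b : FF M) (S.mem_place _ hinf b b.2)
  rw [← hY, coeffMap_coeff] at h
  exact (S.coe_ev _ hinf b).trans h

/-- `χ_∞ b` is the constant coefficient of `red b`. -/
theorem chi_infty_eq_coeff (b : ↥S.B) :
    S.chi (inftyPlace M) hinf b =
      ((S.red b : ↥(modularFunctionFieldFullC (kA A) M)) : LaurentSeries (kA A)).coeff 0 := by
  obtain ⟨Y, hY⟩ := cS.exists_series b
  rw [ChartSpec.chi_apply, ev_infty_eq S cS hinf b Y hY, cS.red_eq b Y hY, coeffMap_coeff]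

variable [IsAlgClosed (kA A)] {xt : ↥(modularFunctionFieldFullC (kA A) M)}
  (hxt : IsGen (kA A) xt)

/-- `(red b)(∞̄) = χ_∞ b`. -/
theorem valueHom_inftyBar_red (b : ↥S.B) :
    valueHom hxt (inftyBar (kA A) M) ⟨S.red b, red_mem_inftyBar S cS hinf b⟩ =
      S.chi (inftyPlace M) hinf b := by
  rw [valueHom_inftyBar, chi_infty_eq_coeff S cS hinf b]

end OneChart

/-! ### the two-chart model -/

variable (T : TwoCharts A hx ↥(modularFunctionFieldFullC (kA A) M))
  (c1 : CoeffChart (F₀ := modularFunctionFieldFull M) T.S1)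
  (hinf : T.S1.InChart (inftyPlace M))
  [IsAlgClosed (kA A)] {xt : ↥(modularFunctionFieldFullC (kA A) M)}
  (hxt : IsGen (kA A) xt)

include c1 hinf hxt in
/-- **(G1)** `r(∞) = ∞̄`. -/
theorem r_infty : T.r (inftyPlace M) = inftyBar (kA A) M := by
  rw [T.r_eq1 hxt _ hinf]
  exact (eq_rAt hxt T.places1 T.tr1 _ hinf (inftyBar (kA A) M)
    (fun b => red_mem_inftyBar T.S1 c1 hinf b)
    (fun b => valueHom_inftyBar_red T.S1 c1 hinf hxt b)).symm

include c1 hinf hxt in
/-- **(G1)**, membership form: `O_{r ∞} = {y | 0 ≤ order y}`. -/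
theorem mem_r_infty_iff (y : ↥(modularFunctionFieldFullC (kA A) M)) :
    y ∈ (T.r (inftyPlace M)).toValuationSubring ↔ 0 ≤ (y : LaurentSeries (kA A)).order := by
  rw [r_infty T c1 hinf hxt, mem_inftyBar_iff']

include c1 hinf hxt in
/-- **(G2a)** a place reducing to `∞̄` lies in the cusp chart. -/
theorem inChart1_of_r_eq (z : Place Qb (FF M)) (hz : T.r z = inftyBar (kA A) M) :
    T.S1.InChart z := by
  apply T.inChart1_of_red_mem hxt
  rw [hz]
  exact red_mem_inftyBar T.S1 c1 hinf _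

/-- the value map at equal places. -/
theorem valueHom_congr_place {K F : Type*} [Field K] [IsAlgClosed K] [Field F] [Algebra K F]
    {x : F} (hx : IsGen K x) {v w : Place K F} (h : v = w) (f : F)
    (hv : f ∈ v.toValuationSubring) (hw : f ∈ w.toValuationSubring) :
    valueHom hx v ⟨f, hv⟩ = valueHom hx w ⟨f, hw⟩ := by
  subst h
  rfl

include c1 hinf hxt in
/-- **(G2b)** a place reducing to `∞̄` has the same centre as `∞`. -/
theorem chi_eq_of_r_eq (z : Place Qb (FF M)) (hz : T.r z = inftyBar (kA A) M)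
    (hzc : T.S1.InChart z) (b : ↥T.S1.B) :
    T.S1.chi z hzc b = T.S1.chi (inftyPlace M) hinf b := by
  rw [← valueHom_rAt hxt T.places1 T.tr1 z hzc b, ← valueHom_inftyBar_red T.S1 c1 hinf hxt b]
  exact valueHom_congr_place hxt ((T.r_eq1 hxt z hzc).symm.trans hz) _ _ _

/-- a function of the chart ring with `χ_z a ≠ 0` is a unit at `z`. -/
theorem ord_eq_zero_of_chi_ne_zero (S : ChartSpec A hx ↥(modularFunctionFieldFullC (kA A) M))
    (z : Place Qb (FF M)) (hzc : S.InChart z) (a : ↥S.B) (ha : S.chi z hzc a ≠ 0) :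
    z.ord (a : FF M) = 0 := by
  have h1 : S.ev z hzc a ≠ 0 := by
    intro h
    apply ha
    rw [ChartSpec.chi_apply, h, map_zero]
  rw [Ne, S.ev_eq_zero_iff z hzc a, not_or, not_lt] at h1
  have h2 := ord_nonneg_of_mem z (S.mem_place z hzc a a.2)
  have h3 := h1.2
  omega

theorem ne_zero_of_chi_ne_zero (S : ChartSpec A hx ↥(modularFunctionFieldFullC (kA A) M))
    (z : Place Qb (FF M)) (hzc : S.InChart z) (a : ↥S.B) (ha : S.chi z hzc a ≠ 0) :
    (a : FF M) ≠ 0 := by
  intro h
  apply ha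
  have : a = 0 := Subtype.ext h
  rw [this, map_zero]

include c1 hinf hxt in
/-- **a unit of `O_∞̄` is a fraction of two elements of the cusp chart which are units at `∞`.** -/
theorem exists_unit_fraction (u : ↥(modularFunctionFieldFullC (kA A) M)) (hu0 : u ≠ 0)
    (hord : (u : LaurentSeries (kA A)).order = 0) :
    ∃ a d : ↥T.S1.B, T.S1.chi (inftyPlace M) hinf a ≠ 0 ∧ T.S1.chi (inftyPlace M) hinf d ≠ 0 ∧
      u * T.S1.red d = T.S1.red a := by
  have hmem : u ∈ (inftyBar (kA A) M).toValuationSubring :=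
    (mem_inftyBar_iff' (kA A) M u).mpr (le_of_eq hord.symm)
  have hmem' := hmem
  rw [← r_infty T c1 hinf hxt, T.r_eq1 hxt _ hinf] at hmem'
  obtain ⟨a, d, hd, had⟩ := (mem_rAt_iff T.places1 T.tr1 _ hinf u).mp hmem'
  refine ⟨a, d, ?_, hd, had⟩
  -- values at `∞̄`
  have h1 : (⟨T.S1.red a, red_mem_inftyBar T.S1 c1 hinf a⟩ :
      ↥(inftyBar (kA A) M).toValuationSubring) =
      ⟨u, hmem⟩ * ⟨T.S1.red d, red_mem_inftyBar T.S1 c1 hinf d⟩ := Subtype.ext had.symm
  have h2 := congrArg (valueHom hxt (inftyBar (kA A) M)) h1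
  rw [map_mul, valueHom_inftyBar_red T.S1 c1 hinf hxt, valueHom_inftyBar_red T.S1 c1 hinf hxt,
    valueHom_inftyBar] at h2
  rw [h2]
  refine mul_ne_zero ?_ hd
  have hu0' : (u : LaurentSeries (kA A)) ≠ 0 := fun h => hu0 (Subtype.ext h)
  have := coeff_order_ne_zero' hu0'
  rwa [hord] at this

include c1 hinf hxt in
/-- **(G4) lifting of units at `∞̄`**: a function `ū ≠ 0` of the special fibre with `ord_∞̄ ū = 0` is
the reduction of an `A`-integral function `ũ` of the generic fibre, whose expansion is a power series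
with unit constant coefficient, which has neither zero nor pole in the residue disc of `∞`. -/
theorem exists_lift (u : ↥(modularFunctionFieldFullC (kA A) M)) (hu0 : u ≠ 0)
    (hord : (u : LaurentSeries (kA A)).order = 0) :
    ∃ (y : LaurentSeries ↥A) (hy : coeffMap A.subtype y ∈ modularFunctionFieldBar M),
      coeffMap (resA A) y = (u : LaurentSeries (kA A)) ∧
      (∀ n : ℤ, n < 0 → y.coeff n = 0) ∧ IsUnit (y.coeff 0) ∧
      ∀ z : Place Qb (FF M), T.r z = inftyBar (kA A) M →
        z.ord (⟨coeffMap A.subtype y, hy⟩ : FF M) = 0 := by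
  obtain ⟨a, d, ha, hd, had⟩ := exists_unit_fraction T c1 hinf hxt u hu0 hord
  obtain ⟨Ya, hYa⟩ := c1.exists_series a
  obtain ⟨Yd, hYd⟩ := c1.exists_series d
  -- `Ya`, `Yd` are power series with unit constant coefficients
  have hYa0 := coeff_neg_of_order_nonneg (order_series_nonneg T.S1 c1 hinf a Ya hYa)
  have hYd0 := coeff_neg_of_order_nonneg (order_series_nonneg T.S1 c1 hinf d Yd hYd)
  have hunita : IsUnit (Ya.coeff 0) := by
    rw [← ev_infty_eq T.S1 c1 hinf a Ya hYa, ← IsLocalRing.residue_ne_zero_iff_isUnit]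
    exact ha
  have hunitd : IsUnit (Yd.coeff 0) := by
    rw [← ev_infty_eq T.S1 c1 hinf d Yd hYd, ← IsLocalRing.residue_ne_zero_iff_isUnit]
    exact hd
  obtain ⟨Z, hZ, hZ0, hZu⟩ := exists_mul_eq_one hYd0 hunitd
  have hd0 : (d : FF M) ≠ 0 := ne_zero_of_chi_ne_zero T.S1 _ hinf d hd
  have ha0 : (a : FF M) ≠ 0 := ne_zero_of_chi_ne_zero T.S1 _ hinf a ha
  -- the expansion of `d⁻¹`
  have hZcoe : coeffMap A.subtype Z = (((d : FF M)⁻¹ : FF M) : LaurentSeries Qb) := by
    have h1 := congrArg (coeffMap A.subtype) hZ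
    rw [map_mul, map_one, hYd] at h1
    show coeffMap A.subtype Z = ((d : FF M) : LaurentSeries Qb)⁻¹
    exact eq_inv_of_mul_eq_one_right h1
  have hycoe : coeffMap A.subtype (Ya * Z) =
      (((a : FF M) * (d : FF M)⁻¹ : FF M) : LaurentSeries Qb) :=
    (show coeffMap A.subtype (Ya * Z) =
        ((a : FF M) : LaurentSeries Qb) * (((d : FF M)⁻¹ : FF M) : LaurentSeries Qb) by
      rw [map_mul, hYa, hZcoe]).trans rfl
  have hy : coeffMap A.subtype (Ya * Z) ∈ modularFunctionFieldBar M := by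
    rw [hycoe]
    exact SetLike.coe_mem _
  refine ⟨Ya * Z, hy, ?_, (ps_mul hYa0 hZ0).1, ?_, ?_⟩
  · -- the reduction
    have hredd0 : T.S1.red d ≠ 0 := fun h =>
      hd (T.S1.chi_eq_zero_of_red_eq_zero _ hinf h)
    have hredd0' : ((T.S1.red d : ↥(modularFunctionFieldFullC (kA A) M)) :
        LaurentSeries (kA A)) ≠ 0 := fun h => hredd0 (Subtype.ext h)
    have h1 := congrArg (coeffMap (resA A)) hZ
    rw [map_mul, map_one, ← c1.red_eq d Yd hYd] at h1
    have h2 : coeffMap (resA A) Z =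
        ((T.S1.red d : ↥(modularFunctionFieldFullC (kA A) M)) : LaurentSeries (kA A))⁻¹ :=
      eq_inv_of_mul_eq_one_right h1
    have h3 : ((T.S1.red a : ↥(modularFunctionFieldFullC (kA A) M)) : LaurentSeries (kA A)) =
        (u : LaurentSeries (kA A)) *
          ((T.S1.red d : ↥(modularFunctionFieldFullC (kA A) M)) : LaurentSeries (kA A)) :=
      (congrArg Subtype.val had).symm
    rw [map_mul, ← c1.red_eq a Ya hYa, h2, h3, mul_assoc, mul_inv_cancel₀ hredd0', mul_one]
  · rw [(ps_mul hYa0 hZ0).2]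
    exact hunita.mul hZu
  · intro z hz
    have hzc := inChart1_of_r_eq T c1 hinf hxt z hz
    have hza : T.S1.chi z hzc a ≠ 0 := by
      rw [chi_eq_of_r_eq T c1 hinf hxt z hz hzc a]; exact ha
    have hzd : T.S1.chi z hzc d ≠ 0 := by
      rw [chi_eq_of_r_eq T c1 hinf hxt z hz hzc d]; exact hd
    have heq : (⟨coeffMap A.subtype (Ya * Z), hy⟩ : FF M) = (a : FF M) * (d : FF M)⁻¹ :=
      Subtype.ext hycoe
    rw [heq, z.ord_mul ha0 (inv_ne_zero hd0), z.ord_inv,
      ord_eq_zero_of_chi_ne_zero T.S1 z hzc a hza, ord_eq_zero_of_chi_ne_zero T.S1 z hzc d hzd,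
      neg_zero, add_zero]

/-! ### `∞` lies in the chart with coordinate `t⁻¹` -/

section Hauptmodul

open Fermat.Agent.RED.BASE Fermat.Agent.RED.BASE.EtaQuot12 Fermat.Agent.ES.RED.SpecialInv25

/-- the order of the formal inverse Hauptmodul is `1` over a field. -/
theorem order_tqInv (K : Type*) [Field K] (n e : ℕ) [NeZero n] : (tqInv K n e).order = 1 := by
  have h := tq_mul_tqInv K n e
  have h1 : tq K n e ≠ 0 := by
    intro h0; rw [h0, zero_mul] at h; exact zero_ne_one h
  have h2 : tqInv K n e ≠ 0 := by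
    intro h0; rw [h0, mul_zero] at h; exact zero_ne_one h
  have h3 := HahnSeries.order_mul h1 h2
  rw [h, HahnSeries.order_one] at h3
  have h4 : (tq K n e).order = -1 := by
    apply le_antisymm
    · exact HahnSeries.order_le_of_coeff_ne_zero (by
        rw [coeff_tq_neg_one]
        exact one_ne_zero)
    · by_contra hlt
      rw [not_le] at hlt
      exact coeff_order_ne_zero' h1 (coeff_tq_of_lt K n e hlt)
  rw [h4] at h3
  omega

variable (n e : ℕ) [NeZero n] (hmem : Interface12.TMem n e M)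

/-- **`∞` lies in the chart with coordinate `t⁻¹`.** -/
theorem inChart_infty_of_s_eq (S : ChartSpec A hx ↥(modularFunctionFieldFullC (kA A) M))
    (hs : S.s = (Interface12.tF M hmem)⁻¹) : S.InChart (inftyPlace M) := by
  have hcoe : ((S.s : FF M) : LaurentSeries Qb) = tqInv Qb n e := by
    rw [hs, coe_tF_inv n e M hmem A, coeffMap_tqInv]
  have hs0 : S.s ∈ (inftyPlace M).toValuationSubring := by
    rw [mem_inftyPlace_iff', hcoe, order_tqInv]
    exact zero_le_one
  refine ⟨hs0, ?_⟩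
  have h0 : (tqInv Qb n e).coeff 0 = 0 :=
    HahnSeries.coeff_eq_zero_of_lt_order (by rw [order_tqInv]; exact zero_lt_one)
  rw [valueHom_inftyPlace, hcoe, h0]
  exact A.zero_mem

end Hauptmodul

end Fermat.Agent.T1B.HGeom33.Chart
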