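/-
T1B / brick H (helper13's route, report 993), slice H-GEOM (helper33), file 1:
THE `q`-EXPANSION PLACE `∞̄` OF THE SPECIAL FIBRE `F̃ = modularFunctionFieldFullC κ N ⊆ κ((q))`
(`κ` ANY field), and the value at `∞̄` / `∞` as the constant coefficient of the `q`-expansion.

* `inftyBar κ N : Place κ F̃`, `inftyBar_ord` (`ord_∞̄ f = order of the Laurent series f`),
  `mem_inftyBar_iff`, `mem_inftyBar_iff'` (`0 ≤ order`, also for `f = 0`);
* `valueHom_inftyBar` : for `κ` algebraically closed, `f(∞̄) = coeff_0 f`;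
* `valueHom_inftyPlace` : the same at the place `∞ = InfPlace.inftyPlace N` of `FF N / ℚbar`;
* `mem_inftyPlace_iff'`;
* `scoped instance instAlgFullC` : a fast path for `Algebra κ F̃` (see below).
-/
import Mathlib
import Fermat.Prelude.Def_ModularCurve_X0ModL
import Fermat.Agent.X0.LaurentPlace
import Fermat.Agent.IG.AN.ModPoly3
import Fermat.Agent.ES.RED.PlaceValue13
import Fermat.Agent.MW.NCA61.InfPlace

set_option autoImplicit false
set_option linter.unusedSectionVars false

open AlgebraicCurve ModularCurve HahnSeries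
open Fermat.Agent.X0 Fermat.Agent.X0.FF

noncomputable section

namespace Fermat.Agent.T1B.HGeom33.InfBar

open Fermat.Agent.ES.RED.PlaceValue13

/-! ### Generalities on places cut out by Laurent embeddings -/

section Generic

variable {K F : Type*} [Field K] [Field F] [Algebra K F]

/-- If some element has `τ`-order `-1`, the place of `τ` has index one (any characteristic). -/
theorem embPlace_ord_eq' (τ : F →+* LaurentSeries K)
    (hτ : ∀ c : K, τ (algebraMap K F c) = HahnSeries.C c)
    (hnt : ∃ f, f ≠ 0 ∧ (τ f).order ≠ 0) {x : F} (hx0 : x ≠ 0) (hx : (τ x).order = -1)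
    {f : F} (hf : f ≠ 0) : (LaurentPlace.embPlace τ hτ hnt).ord f = (τ f).order := by
  obtain ⟨m, hm, hspec⟩ := LaurentPlace.embPlace_spec τ hτ hnt
  have h1 := hspec x hx0
  rw [hx] at h1
  have hdvd : (m : ℤ) ∣ 1 := ⟨-(LaurentPlace.embPlace τ hτ hnt).ord x, by linarith⟩
  have hm1 : (m : ℤ) = 1 := Int.eq_one_of_dvd_one (by positivity) hdvd
  have h2 := hspec f hf
  rw [hm1, one_mul] at h2
  exact h2.symm

/-- the leading coefficient of a nonzero Laurent series does not vanish. -/
theorem coeff_order_ne_zero' {R : Type*} [CommRing R] {y : LaurentSeries R} (h : y ≠ 0) :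
    y.coeff y.order ≠ 0 :=
  HahnSeries.coeff_order_eq_zero.not.mpr h

/-- a Laurent series of nonnegative order minus its constant coefficient has positive order
(or vanishes). -/
theorem sub_C_coeff_zero {R : Type*} [CommRing R] {y : LaurentSeries R} (hy : 0 ≤ y.order)
    (h0 : y - HahnSeries.C (y.coeff 0) ≠ 0) : 0 < (y - HahnSeries.C (y.coeff 0)).order := by
  by_contra hle
  rw [not_lt] at hle
  apply coeff_order_ne_zero' h0
  generalize (y - HahnSeries.C (y.coeff 0)).order = m at hle ⊢
  rw [HahnSeries.coeff_sub, HahnSeries.C_apply]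
  rcases lt_or_eq_of_le hle with hlt | heq
  · rw [HahnSeries.coeff_eq_zero_of_lt_order (lt_of_lt_of_le hlt hy),
      HahnSeries.coeff_single_of_ne hlt.ne, sub_zero]
  · rw [heq, HahnSeries.coeff_single_same, sub_self]

variable [IsAlgClosed K]

/-- **the value at the place of a Laurent embedding is the constant coefficient.** -/
theorem valueHom_embPlace (τ : F →+* LaurentSeries K)
    (hτ : ∀ c : K, τ (algebraMap K F c) = HahnSeries.C c)
    (hnt : ∃ f, f ≠ 0 ∧ (τ f).order ≠ 0) {x : F} (hx : IsGen K x) (f : F)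
    (hf : f ∈ (LaurentPlace.embPlace τ hτ hnt).toValuationSubring) :
    valueHom hx (LaurentPlace.embPlace τ hτ hnt) ⟨f, hf⟩ = (τ f).coeff 0 := by
  rw [valueHom_eq_iff]
  by_cases h0 : f = algebraMap K F ((τ f).coeff 0)
  · exact Or.inl h0
  right
  have hne : f - algebraMap K F ((τ f).coeff 0) ≠ 0 := sub_ne_zero.mpr h0
  have hf0 : f ≠ 0 := by
    rintro rfl
    apply h0
    rw [map_zero, HahnSeries.coeff_zero, map_zero]
  have hord : 0 ≤ (τ f).order := (LaurentPlace.mem_embPlace_iff τ hτ hnt hf0).mp hf
  obtain ⟨m, hm, hspec⟩ := LaurentPlace.embPlace_spec τ hτ hnt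
  have h1 := hspec _ hne
  have h2 : τ (f - algebraMap K F ((τ f).coeff 0)) = τ f - HahnSeries.C ((τ f).coeff 0) := by
    rw [map_sub, hτ]
  have h3 : 0 < (τ f - HahnSeries.C ((τ f).coeff 0)).order := by
    apply sub_C_coeff_zero hord
    rw [← h2]
    exact LaurentPlace.emb_ne_zero τ hne
  rw [h2] at h1
  have hm' : (0 : ℤ) < m := by exact_mod_cast hm
  by_contra hle
  rw [not_lt] at hle
  have : (m : ℤ) * (LaurentPlace.embPlace τ hτ hnt).ord (f - algebraMap K F ((τ f).coeff 0)) ≤ 0 :=
    mul_nonpos_of_nonneg_of_nonpos hm'.le hle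
  omega

end Generic

/-! ### a shortcut instance

`Algebra κ ↥(modularFunctionFieldFullC κ N)` for `κ = IsLocalRing.ResidueField ↥A` costs several
seconds per query (and exceeds the default `synthInstance.maxHeartbeats`) because of the
`ResidueField` instances tried first.  `open scoped Fermat.Agent.T1B.HGeom33.InfBar` makes it instant;
the term is the standard instance (found at a generic field `κ`). -/

/-- shortcut for `Algebra κ F̃`. -/
scoped instance (priority := 10000) instAlgFullC (κ : Type*) [Field κ] (N : ℕ) :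
    Algebra κ ↥(modularFunctionFieldFullC κ N) := inferInstance

/-! ### the place `∞̄` of the special fibre -/

section Special

variable (κ : Type*) [Field κ] (N : ℕ) [NeZero N]

/-- the tautological embedding `F̃ → κ((q))`. -/
def incC : ↥(modularFunctionFieldFullC κ N) →+* LaurentSeries κ :=
  (modularFunctionFieldFullC κ N).val.toRingHom

theorem incC_apply (f : ↥(modularFunctionFieldFullC κ N)) :
    incC κ N f = (f : LaurentSeries κ) := rfl

theorem incC_const (c : κ) :
    incC κ N (algebraMap κ ↥(modularFunctionFieldFullC κ N) c) = HahnSeries.C c := by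
  show algebraMap κ (LaurentSeries κ) c = HahnSeries.C c
  rw [algebraMap_laurentSeries_eq_single]
  rfl

/-- `j̃` as an element of `F̃`. -/
def jC : ↥(modularFunctionFieldFullC κ N) := ⟨jqModC κ, jqModC_mem_full κ N⟩

theorem order_incC_jC : (incC κ N (jC κ N)).order = -1 :=
  Fermat.Agent.IG.AN.ModPoly3.order_jqModC κ

theorem jC_ne_zero : jC κ N ≠ 0 := by
  intro h
  have := order_incC_jC κ N
  rw [h, map_zero, HahnSeries.order_zero] at this
  omega

theorem exists_order_ne_zero :
    ∃ f : ↥(modularFunctionFieldFullC κ N), f ≠ 0 ∧ (incC κ N f).order ≠ 0 :=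
  ⟨jC κ N, jC_ne_zero κ N, by rw [order_incC_jC]; decide⟩

/-- **The place `∞̄`** of `F̃ = κ(j̃(q^d) : d ∣ N)`: the `q`-expansion place. -/
def inftyBar : Place κ ↥(modularFunctionFieldFullC κ N) :=
  LaurentPlace.embPlace (incC κ N) (incC_const κ N) (exists_order_ne_zero κ N)

/-- `ord_∞̄ f` is the order of the Laurent series `f`. -/
theorem inftyBar_ord {f : ↥(modularFunctionFieldFullC κ N)} (hf : f ≠ 0) :
    (inftyBar κ N).ord f = (f : LaurentSeries κ).order :=
  embPlace_ord_eq' (incC κ N) (incC_const κ N) (exists_order_ne_zero κ N) (jC_ne_zero κ N)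
    (order_incC_jC κ N) hf

theorem mem_inftyBar_iff {f : ↥(modularFunctionFieldFullC κ N)} (hf : f ≠ 0) :
    f ∈ (inftyBar κ N).toValuationSubring ↔ 0 ≤ (f : LaurentSeries κ).order :=
  LaurentPlace.mem_embPlace_iff (incC κ N) (incC_const κ N) (exists_order_ne_zero κ N) hf

/-- membership in `O_∞̄`, including `f = 0`. -/
theorem mem_inftyBar_iff' (f : ↥(modularFunctionFieldFullC κ N)) :
    f ∈ (inftyBar κ N).toValuationSubring ↔ 0 ≤ (f : LaurentSeries κ).order := by
  by_cases hf : f = 0
  · subst hf
    simp only [zero_mem, ZeroMemClass.coe_zero, HahnSeries.order_zero, le_refl]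
  · exact mem_inftyBar_iff κ N hf

/-- **`f(∞̄)` is the constant coefficient of the `q`-expansion.** -/
theorem valueHom_inftyBar [IsAlgClosed κ] {xt : ↥(modularFunctionFieldFullC κ N)}
    (hxt : IsGen κ xt) (f : ↥(modularFunctionFieldFullC κ N))
    (hf : f ∈ (inftyBar κ N).toValuationSubring) :
    valueHom hxt (inftyBar κ N) ⟨f, hf⟩ = (f : LaurentSeries κ).coeff 0 :=
  valueHom_embPlace (incC κ N) (incC_const κ N) (exists_order_ne_zero κ N) hxt f hf

end Special

/-! ### the place `∞` of the generic fibre -/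

section GenericFibre

open Fermat.Agent.MW.NCA61.InfPlace Fermat.Agent.ES.N34.ModEqBar23

variable (N : ℕ) [NeZero N]

/-- membership in `O_∞`, including `f = 0`. -/
theorem mem_inftyPlace_iff' (f : FF N) :
    f ∈ (inftyPlace N).toValuationSubring ↔ 0 ≤ (f : LaurentSeries Kbar).order := by
  by_cases hf : f = 0
  · subst hf
    simp only [zero_mem, ZeroMemClass.coe_zero, HahnSeries.order_zero, le_refl]
  · exact mem_inftyPlace_iff N hf

/-- **`f(∞)` is the constant coefficient of the `q`-expansion.** -/
theorem valueHom_inftyPlace {x : FF N} (hx : IsGen Kbar x) (f : FF N)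
    (hf : f ∈ (inftyPlace N).toValuationSubring) :
    valueHom hx (inftyPlace N) ⟨f, hf⟩ = (f : LaurentSeries Kbar).coeff 0 :=
  valueHom_embPlace (valHom N) (valHom_const N)
    (Fermat.Agent.MW.NCA61.InfPlace.exists_order_ne_zero N) hx f hf

end GenericFibre

end Fermat.Agent.T1B.HGeom33.InfBar
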