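/-
T1B / brick H (helper13's route, report 993), slice H-GEOM (helper33), file 2:
ABSTRACT CONSEQUENCES of the Prelude contract `IsPlaceReductionAlong A (residue A) N r` together with
`r ∞ = ∞̄`, for `A`-integral functions REGULAR AWAY FROM `∞`.

Setting: `A ≤ ℚbar` a valuation ring, `κ = A / 𝔪_A`, `F = FF N ⊆ ℚbar((q))`, `F̃ = κ(j̃(q^d)) ⊆ κ((q))`,
`y ∈ A((q))` with `f := coeffMap A.subtype y ∈ F`, `f̃ := coeffMap (residue A) y ∈ F̃`,
`RegAway f : ∀ z ≠ ∞, 0 ≤ ord_z f`.

* `mapDomain_apply_eq_sum` : `(r_* D)(Q) = ∑_{P ∈ supp D, r P = Q} D P`;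
* `ord_red_nonneg` **(poles)** : `f̃` is regular at every `Q ≠ ∞̄`;
* `ord_red_pos` **(zeros)** : `f̃ ≠ 0`, `r z ≠ ∞̄`, `0 < ord_z f  ⇒  0 < ord_{r z} f̃`;
* `exists_value` **(values)** : for `r z ≠ ∞̄`: `f(z) = c ∈ A`, `f̃ ∈ O_{r z}` and `f̃(r z) = c mod 𝔪_A`.
-/
import Mathlib
import Fermat.Prelude.Def_ModularCurve_ReductionModL
import Fermat.Agent.T1B.HGeom33.InfBar
import Fermat.Agent.RED.TOP.FbarFacts20

set_option autoImplicit false
set_option linter.unusedSectionVars false
set_option linter.style.haveILetI false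
set_option synthInstance.maxHeartbeats 400000

open AlgebraicCurve ModularCurve HahnSeries
open Fermat.Agent.X0 Fermat.Agent.X0.FF

open scoped Fermat.Agent.T1B.HGeom33.InfBar

noncomputable section

namespace Fermat.Agent.T1B.HGeom33.Values

open Fermat.Agent.ES.RED.PlaceValue13 Fermat.Agent.MW.NCA61.InfPlace
open Fermat.Agent.T1B.HGeom33.InfBar

/-! ### push-forward of divisors as a sum over the fibre -/

open Classical in
theorem mapDomain_apply_eq_sum {α β : Type*} (r : α → β) (D : α →₀ ℤ) (Q : β) :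
    Finsupp.mapDomain r D Q = ∑ P ∈ D.support, if r P = Q then D P else 0 := by
  rw [Finsupp.mapDomain, Finsupp.sum_apply, Finsupp.sum]
  apply Finset.sum_congr rfl
  intro P _
  rw [Finsupp.single_apply]

theorem mapDomain_apply_nonneg {α β : Type*} (r : α → β) (D : α →₀ ℤ) (Q : β)
    (h : ∀ P, r P = Q → 0 ≤ D P) : 0 ≤ Finsupp.mapDomain r D Q := by
  classical
  rw [mapDomain_apply_eq_sum]
  apply Finset.sum_nonneg
  intro P _
  split_ifs with hP
  · exact h P hP
  · exact le_rfl

theorem le_mapDomain_apply {α β : Type*} (r : α → β) (D : α →₀ ℤ) (z : α)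
    (h : ∀ P, r P = r z → 0 ≤ D P) : D z ≤ Finsupp.mapDomain r D (r z) := by
  classical
  rw [mapDomain_apply_eq_sum]
  have hnn : ∀ P ∈ D.support, 0 ≤ (if r P = r z then D P else 0) := by
    intro P _
    split_ifs with hP
    · exact h P hP
    · exact le_rfl
  by_cases hz : z ∈ D.support
  · have h1 := Finset.single_le_sum hnn hz
    rwa [if_pos rfl] at h1
  · rw [Finsupp.notMem_support_iff.mp hz]
    exact Finset.sum_nonneg hnn

/-! ### the setting -/

variable {N : ℕ} [NeZero N] {A : ValuationSubring Kbar}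

/-- regular away from `∞` (unfolds to `Hol13.RegOff N f`). -/
def RegAway (f : FF N) : Prop :=
  ∀ z : Place Kbar (FF N), z ≠ inftyPlace N → f ∈ z.toValuationSubring

theorem RegAway.ord_nonneg {f : FF N} (hf : RegAway f) (z : Place Kbar (FF N))
    (hz : z ≠ inftyPlace N) : 0 ≤ z.ord f :=
  ord_nonneg_of_mem z (hf z hz)

theorem regAway_of_ord_nonneg {f : FF N}
    (hf : ∀ z : Place Kbar (FF N), z ≠ inftyPlace N → 0 ≤ z.ord f) : RegAway f :=
  fun z hz => mem_of_ord_nonneg z (hf z hz)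

theorem RegAway.sub_const {f : FF N} (hf : RegAway f) (c : Kbar) :
    RegAway (f - algebraMap Kbar (FF N) c) := fun z hz =>
  sub_mem (hf z hz) (z.algebraMap_mem' c)

theorem RegAway.const_mul {f : FF N} (hf : RegAway f) (c : Kbar) :
    RegAway (algebraMap Kbar (FF N) c * f) := fun z hz =>
  mul_mem (z.algebraMap_mem' c) (hf z hz)

variable {r : Place Kbar (FF N) →
  Place (IsLocalRing.ResidueField ↥A) ↥(modularFunctionFieldFullC (IsLocalRing.ResidueField ↥A) N)}

theorem eq_zero_of_coeffMap_subtype_eq_zero {y : LaurentSeries ↥A}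
    (h : coeffMap A.subtype y = 0) : y = 0 := by
  refine HahnSeries.ext (funext fun n => Subtype.ext ?_)
  have h1 := congrArg (fun s : LaurentSeries Kbar => s.coeff n) h
  simp only [coeffMap_coeff, HahnSeries.coeff_zero] at h1
  exact h1

theorem ne_zero_of_red_ne_zero {y : LaurentSeries ↥A}
    (hy : coeffMap A.subtype y ∈ modularFunctionFieldBar N)
    (hne : coeffMap (IsLocalRing.residue ↥A) y ≠ 0) : (⟨coeffMap A.subtype y, hy⟩ : FF N) ≠ 0 := by
  intro h0
  apply hne
  rw [eq_zero_of_coeffMap_subtype_eq_zero (congrArg Subtype.val h0), map_zero]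

section Core

variable (hr : IsPlaceReductionAlong A (IsLocalRing.residue ↥A) N r)
  (hinf : r (inftyPlace N) = inftyBar (IsLocalRing.ResidueField ↥A) N)

include hr hinf

/-- **(poles)** the reduction of an integral function regular away from `∞` is regular away from
`∞̄`. -/
theorem ord_red_nonneg (y : LaurentSeries ↥A) (hy : coeffMap A.subtype y ∈ modularFunctionFieldBar N)
    (hyk : coeffMap (IsLocalRing.residue ↥A) y ∈
      modularFunctionFieldFullC (IsLocalRing.ResidueField ↥A) N)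
    (hreg : RegAway (⟨coeffMap A.subtype y, hy⟩ : FF N))
    (Q : Place (IsLocalRing.ResidueField ↥A)
      ↥(modularFunctionFieldFullC (IsLocalRing.ResidueField ↥A) N))
    (hQ : Q ≠ inftyBar (IsLocalRing.ResidueField ↥A) N) :
    0 ≤ Q.ord (⟨coeffMap (IsLocalRing.residue ↥A) y, hyk⟩ :
      ↥(modularFunctionFieldFullC (IsLocalRing.ResidueField ↥A) N)) := by
  by_cases hne : coeffMap (IsLocalRing.residue ↥A) y = 0
  · have : (⟨coeffMap (IsLocalRing.residue ↥A) y, hyk⟩ :
        ↥(modularFunctionFieldFullC (IsLocalRing.ResidueField ↥A) N)) = 0 := Subtype.ext hne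
    rw [this, Place.ord_zero]
  have hf0 : (⟨coeffMap A.subtype y, hy⟩ : FF N) ≠ 0 := ne_zero_of_red_ne_zero hy hne
  haveI := Fermat.Agent.RED.TOP.FbarFacts20.hasPrincipalDivisors_bar N
  obtain ⟨D, hD, -⟩ := HasPrincipalDivisors.exists_divisor (K := Kbar)
    (⟨coeffMap A.subtype y, hy⟩ : FF N) hf0
  rw [← hr.2 y hy hyk hne D hD Q]
  apply mapDomain_apply_nonneg
  intro P hP
  rw [hD P]
  apply hreg.ord_nonneg
  rintro rfl
  exact hQ (hP.symm.trans hinf)

/-- **(zeros)** a zero of `f` outside the residue disc of `∞` reduces to a zero of `f̃`. -/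
theorem ord_red_pos (y : LaurentSeries ↥A) (hy : coeffMap A.subtype y ∈ modularFunctionFieldBar N)
    (hyk : coeffMap (IsLocalRing.residue ↥A) y ∈
      modularFunctionFieldFullC (IsLocalRing.ResidueField ↥A) N)
    (hne : coeffMap (IsLocalRing.residue ↥A) y ≠ 0)
    (hreg : RegAway (⟨coeffMap A.subtype y, hy⟩ : FF N))
    (z : Place Kbar (FF N)) (hz : r z ≠ inftyBar (IsLocalRing.ResidueField ↥A) N)
    (hpos : 0 < z.ord (⟨coeffMap A.subtype y, hy⟩ : FF N)) :
    0 < (r z).ord (⟨coeffMap (IsLocalRing.residue ↥A) y, hyk⟩ :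
      ↥(modularFunctionFieldFullC (IsLocalRing.ResidueField ↥A) N)) := by
  have hf0 : (⟨coeffMap A.subtype y, hy⟩ : FF N) ≠ 0 := by
    intro h0
    rw [h0, Place.ord_zero] at hpos
    exact lt_irrefl _ hpos
  haveI := Fermat.Agent.RED.TOP.FbarFacts20.hasPrincipalDivisors_bar N
  obtain ⟨D, hD, -⟩ := HasPrincipalDivisors.exists_divisor (K := Kbar)
    (⟨coeffMap A.subtype y, hy⟩ : FF N) hf0
  rw [← hr.2 y hy hyk hne D hD (r z)]
  refine lt_of_lt_of_le ?_ (le_mapDomain_apply r D z ?_)
  · rw [hD z]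
    exact hpos
  · intro P hP
    rw [hD P]
    apply hreg.ord_nonneg
    rintro rfl
    exact hz (hP.symm.trans hinf)

end Core

/-! ### values -/

section Values

variable [IsAlgClosed (IsLocalRing.ResidueField ↥A)]
  {x : FF N} (hx : IsGen Kbar x)
  {xt : ↥(modularFunctionFieldFullC (IsLocalRing.ResidueField ↥A) N)}
  (hxt : IsGen (IsLocalRing.ResidueField ↥A) xt)
  (hr : IsPlaceReductionAlong A (IsLocalRing.residue ↥A) N r)
  (hinf : r (inftyPlace N) = inftyBar (IsLocalRing.ResidueField ↥A) N)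
  (hmem : ∀ Y : LaurentSeries ↥A, coeffMap A.subtype Y ∈ modularFunctionFieldBar N →
    coeffMap (IsLocalRing.residue ↥A) Y ∈
      modularFunctionFieldFullC (IsLocalRing.ResidueField ↥A) N)

theorem coeffMap_C {R S : Type*} [CommRing R] [CommRing S] (φ : R →+* S) (a : R) :
    coeffMap φ (HahnSeries.C a : LaurentSeries R) = HahnSeries.C (φ a) := by
  show coeffMap φ (HahnSeries.single 0 a) = HahnSeries.single 0 (φ a)
  rw [coeffMap_single]

theorem coe_algebraMap_FF (c : Kbar) :
    ((algebraMap Kbar (FF N) c : FF N) : LaurentSeries Kbar) = HahnSeries.C c := by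
  show algebraMap Kbar (LaurentSeries Kbar) c = HahnSeries.C c
  rw [algebraMap_laurentSeries_eq_single]
  rfl

theorem coe_algebraMap_fullC {κ : Type*} [Field κ] (c : κ) :
    ((algebraMap κ ↥(modularFunctionFieldFullC κ N) c : ↥(modularFunctionFieldFullC κ N)) :
      LaurentSeries κ) = HahnSeries.C c := by
  show algebraMap κ (LaurentSeries κ) c = HahnSeries.C c
  rw [algebraMap_laurentSeries_eq_single]
  rfl

include hr hinf hmem in
/-- the value of an integral function regular away from `∞`, at a place outside the residue disc of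
`∞`, lies in `A`. -/
theorem value_mem (y : LaurentSeries ↥A) (hy : coeffMap A.subtype y ∈ modularFunctionFieldBar N)
    (hreg : RegAway (⟨coeffMap A.subtype y, hy⟩ : FF N))
    (z : Place Kbar (FF N)) (hz : r z ≠ inftyBar (IsLocalRing.ResidueField ↥A) N)
    (hfz : (⟨coeffMap A.subtype y, hy⟩ : FF N) ∈ z.toValuationSubring) :
    valueHom hx z ⟨⟨coeffMap A.subtype y, hy⟩, hfz⟩ ∈ A := by
  set c0 : Kbar := valueHom hx z ⟨⟨coeffMap A.subtype y, hy⟩, hfz⟩ with hc0
  by_contra hcA
  have hinvA : c0⁻¹ ∈ A := (A.mem_or_inv_mem c0).resolve_left hcA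
  -- `c0⁻¹` is a non-unit of `A`
  have hres : IsLocalRing.residue ↥A (⟨c0⁻¹, hinvA⟩ : ↥A) = 0 := by
    rw [IsLocalRing.residue_eq_zero_iff, IsLocalRing.mem_maximalIdeal, mem_nonunits_iff]
    intro hu
    apply hcA
    obtain ⟨w, hw⟩ := hu.exists_right_inv
    have hw' : c0⁻¹ * (w : Kbar) = 1 := by
      have := congrArg Subtype.val hw
      simpa using this
    have hc00 : c0 ≠ 0 := by
      intro h0
      apply hcA
      rw [h0]
      exact A.zero_mem
    have : (w : Kbar) = c0 := by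
      calc (w : Kbar) = c0 * (c0⁻¹ * (w : Kbar)) := by
            rw [← mul_assoc, mul_inv_cancel₀ hc00, one_mul]
        _ = c0 := by rw [hw', mul_one]
    rw [← this]
    exact w.2
  -- the series `y' = c0⁻¹ y - 1`
  set a : ↥A := ⟨c0⁻¹, hinvA⟩ with ha
  have hsub : A.subtype a = c0⁻¹ := rfl
  set y' : LaurentSeries ↥A := HahnSeries.C a * y - 1 with hy'
  have hy'coe : coeffMap A.subtype y' =
      ((algebraMap Kbar (FF N) c0⁻¹ * ⟨coeffMap A.subtype y, hy⟩ - 1 : FF N) :
        LaurentSeries Kbar) :=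
    (show coeffMap A.subtype y' = HahnSeries.C c0⁻¹ * coeffMap A.subtype y - 1 by
      rw [hy', map_sub, map_mul, map_one, coeffMap_C, hsub]).trans
    (show HahnSeries.C c0⁻¹ * coeffMap A.subtype y - 1 =
        ((algebraMap Kbar (FF N) c0⁻¹ : FF N) : LaurentSeries Kbar) * coeffMap A.subtype y - 1 by
      rw [coe_algebraMap_FF])
  have hy'mem : coeffMap A.subtype y' ∈ modularFunctionFieldBar N := by
    rw [hy'coe]
    exact SetLike.coe_mem _
  have hy'red : coeffMap (IsLocalRing.residue ↥A) y' = -1 := by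
    rw [hy', map_sub, map_mul, map_one, coeffMap_C, hres, map_zero, zero_mul, zero_sub]
  have hy'k := hmem y' hy'mem
  have hy'ne : coeffMap (IsLocalRing.residue ↥A) y' ≠ 0 := by
    rw [hy'red]
    exact neg_ne_zero.mpr one_ne_zero
  have heq : (⟨coeffMap A.subtype y', hy'mem⟩ : FF N) =
      algebraMap Kbar (FF N) c0⁻¹ * ⟨coeffMap A.subtype y, hy⟩ - 1 := Subtype.ext hy'coe
  have hreg' : RegAway (⟨coeffMap A.subtype y', hy'mem⟩ : FF N) := by
    rw [heq]
    have := (hreg.const_mul c0⁻¹).sub_const 1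
    rwa [map_one] at this
  -- `g(z) = 0`
  have hgz : (⟨coeffMap A.subtype y', hy'mem⟩ : FF N) ∈ z.toValuationSubring := by
    rw [heq]
    exact sub_mem (mul_mem (z.algebraMap_mem' _) hfz) (one_mem _)
  have hc00 : c0 ≠ 0 := by
    intro h0
    apply hcA
    rw [h0]
    exact A.zero_mem
  have hval : valueHom hx z ⟨⟨coeffMap A.subtype y', hy'mem⟩, hgz⟩ = 0 := by
    have h1 : (⟨⟨coeffMap A.subtype y', hy'mem⟩, hgz⟩ : ↥z.toValuationSubring) =
        algebraMap Kbar ↥z.toValuationSubring c0⁻¹ * ⟨⟨coeffMap A.subtype y, hy⟩, hfz⟩ - 1 :=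
      Subtype.ext heq
    rw [h1, map_sub, map_mul, map_one, (valueHom hx z).commutes, ← hc0]
    simp [hc00]
  have hg0 : (⟨coeffMap A.subtype y', hy'mem⟩ : FF N) ≠ 0 := ne_zero_of_red_ne_zero hy'mem hy'ne
  have hpos : 0 < z.ord (⟨coeffMap A.subtype y', hy'mem⟩ : FF N) := by
    rcases (valueHom_eq_zero_iff_ord hx z _).mp hval with h | h
    · exact absurd h hg0
    · exact h
  have := ord_red_pos hr hinf y' hy'mem hy'k hy'ne hreg' z hz hpos
  have hm1 : (⟨coeffMap (IsLocalRing.residue ↥A) y', hy'k⟩ :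
      ↥(modularFunctionFieldFullC (IsLocalRing.ResidueField ↥A) N)) = -1 := Subtype.ext hy'red
  rw [hm1, ord_neg, Place.ord_one] at this
  exact lt_irrefl _ this

include hr hinf hmem in
/-- **(values)** for `r z ≠ ∞̄`: `f(z) = c ∈ A`, `f̃` is regular at `r z` and `f̃(r z) = c mod 𝔪_A`. -/
theorem exists_value (y : LaurentSeries ↥A)
    (hy : coeffMap A.subtype y ∈ modularFunctionFieldBar N)
    (hreg : RegAway (⟨coeffMap A.subtype y, hy⟩ : FF N))
    (z : Place Kbar (FF N)) (hz : r z ≠ inftyBar (IsLocalRing.ResidueField ↥A) N)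
    (hfz : (⟨coeffMap A.subtype y, hy⟩ : FF N) ∈ z.toValuationSubring) :
    ∃ (c : ↥A) (hft : (⟨coeffMap (IsLocalRing.residue ↥A) y, hmem y hy⟩ :
        ↥(modularFunctionFieldFullC (IsLocalRing.ResidueField ↥A) N)) ∈ (r z).toValuationSubring),
      valueHom hx z ⟨⟨coeffMap A.subtype y, hy⟩, hfz⟩ = (c : Kbar) ∧
      valueHom hxt (r z) ⟨⟨coeffMap (IsLocalRing.residue ↥A) y, hmem y hy⟩, hft⟩ =
        IsLocalRing.residue ↥A c := by
  have hcA := value_mem hx hr hinf hmem y hy hreg z hz hfz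
  set c0 : Kbar := valueHom hx z ⟨⟨coeffMap A.subtype y, hy⟩, hfz⟩ with hc0
  set c : ↥A := ⟨c0, hcA⟩ with hc
  -- regularity of `f̃` at `r z`
  have hft : (⟨coeffMap (IsLocalRing.residue ↥A) y, hmem y hy⟩ :
      ↥(modularFunctionFieldFullC (IsLocalRing.ResidueField ↥A) N)) ∈ (r z).toValuationSubring :=
    mem_of_ord_nonneg _ (ord_red_nonneg hr hinf y hy (hmem y hy) hreg (r z) hz)
  refine ⟨c, hft, rfl, ?_⟩
  -- the series `y' = y - c`
  set y' : LaurentSeries ↥A := y - HahnSeries.C c with hy'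
  have hsub : A.subtype c = c0 := rfl
  have hy'coe : coeffMap A.subtype y' =
      ((⟨coeffMap A.subtype y, hy⟩ - algebraMap Kbar (FF N) c0 : FF N) : LaurentSeries Kbar) :=
    (show coeffMap A.subtype y' = coeffMap A.subtype y - HahnSeries.C c0 by
      rw [hy', map_sub, coeffMap_C, hsub]).trans
    (show coeffMap A.subtype y - HahnSeries.C c0 =
        coeffMap A.subtype y - ((algebraMap Kbar (FF N) c0 : FF N) : LaurentSeries Kbar) by
      rw [coe_algebraMap_FF])
  have hy'mem : coeffMap A.subtype y' ∈ modularFunctionFieldBar N := by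
    rw [hy'coe]
    exact SetLike.coe_mem _
  have hy'red : coeffMap (IsLocalRing.residue ↥A) y' =
      coeffMap (IsLocalRing.residue ↥A) y - HahnSeries.C (IsLocalRing.residue ↥A c) := by
    rw [hy', map_sub, coeffMap_C]
  have hy'k := hmem y' hy'mem
  have heq : (⟨coeffMap A.subtype y', hy'mem⟩ : FF N) =
      ⟨coeffMap A.subtype y, hy⟩ - algebraMap Kbar (FF N) c0 := Subtype.ext hy'coe
  have heqt : (⟨coeffMap (IsLocalRing.residue ↥A) y', hy'k⟩ :
      ↥(modularFunctionFieldFullC (IsLocalRing.ResidueField ↥A) N)) =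
      ⟨coeffMap (IsLocalRing.residue ↥A) y, hmem y hy⟩ -
        algebraMap (IsLocalRing.ResidueField ↥A) _ (IsLocalRing.residue ↥A c) := by
    apply Subtype.ext
    show coeffMap (IsLocalRing.residue ↥A) y' = coeffMap (IsLocalRing.residue ↥A) y -
      ((algebraMap (IsLocalRing.ResidueField ↥A)
        ↥(modularFunctionFieldFullC (IsLocalRing.ResidueField ↥A) N) (IsLocalRing.residue ↥A c) :
        ↥(modularFunctionFieldFullC (IsLocalRing.ResidueField ↥A) N)) :
        LaurentSeries (IsLocalRing.ResidueField ↥A))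
    rw [coe_algebraMap_fullC]
    exact hy'red
  rw [valueHom_eq_iff]
  by_cases hne : coeffMap (IsLocalRing.residue ↥A) y' = 0
  · left
    have h0 : (⟨coeffMap (IsLocalRing.residue ↥A) y', hy'k⟩ :
        ↥(modularFunctionFieldFullC (IsLocalRing.ResidueField ↥A) N)) = 0 := Subtype.ext hne
    rw [heqt, sub_eq_zero] at h0
    exact h0
  · right
    have hreg' : RegAway (⟨coeffMap A.subtype y', hy'mem⟩ : FF N) := by
      rw [heq]
      exact hreg.sub_const c0
    have hgz : (⟨coeffMap A.subtype y', hy'mem⟩ : FF N) ∈ z.toValuationSubring := by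
      rw [heq]
      exact sub_mem hfz (z.algebraMap_mem' _)
    have hval : valueHom hx z ⟨⟨coeffMap A.subtype y', hy'mem⟩, hgz⟩ = 0 := by
      have h1 : (⟨⟨coeffMap A.subtype y', hy'mem⟩, hgz⟩ : ↥z.toValuationSubring) =
          ⟨⟨coeffMap A.subtype y, hy⟩, hfz⟩ - algebraMap Kbar ↥z.toValuationSubring c0 :=
        Subtype.ext heq
      rw [h1, map_sub, (valueHom hx z).commutes, ← hc0, Algebra.algebraMap_self, RingHom.id_apply,
        sub_self]
    have hg0 : (⟨coeffMap A.subtype y', hy'mem⟩ : FF N) ≠ 0 := ne_zero_of_red_ne_zero hy'mem hne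
    have hpos : 0 < z.ord (⟨coeffMap A.subtype y', hy'mem⟩ : FF N) := by
      rcases (valueHom_eq_zero_iff_ord hx z _).mp hval with h | h
      · exact absurd h hg0
      · exact h
    have := ord_red_pos hr hinf y' hy'mem hy'k hne hreg' z hz hpos
    rw [heqt] at this
    exact this

end Values

end Fermat.Agent.T1B.HGeom33.Values
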