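/-
T1B / brick H, slice H-GEOM (helper33), file 4: BRIDGE to the vocabulary of `Hol13` / `HolGeom93`.

* `inftyBar_eq_inftyPlaceC` : `InfBar.inftyBar κ N = Hol13.inftyPlaceC κ N` (one place, two names);
* `hval` : the value compatibility (G2) in EXACTLY the shape of the hypothesis `hval` of
  `HolGeom93.PBCore.pb_of_geom` (`Hol13.RegOff`, `Hol13.inftyPlaceC`, `HasCanDivInst.isGen N`);
* `infty`, `lift` : (G1) and (G4) for the two-chart model in EXACTLY the shape of the fields
  `HolGeom93.Geom.infty` / `HolGeom93.Geom.lift` (and of `hinf`, `hlift` of `pb_of_geom`);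
* `ord_red_nonneg'`, `ord_red_pos'` : poles / zeros of reductions with `inftyPlaceC`.
-/
import Mathlib
import Fermat.Agent.T1B.Hol13.PB0
import Fermat.Agent.T1B.HGeom33.Values
import Fermat.Agent.T1B.HGeom33.Chart
import Fermat.Agent.X0.HasCanDivInst

set_option autoImplicit false
set_option linter.unusedSectionVars false
set_option linter.style.haveILetI false
set_option synthInstance.maxHeartbeats 400000

open AlgebraicCurve ModularCurve HahnSeries
open Fermat.Agent.X0 Fermat.Agent.X0.FF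

open scoped Fermat.Agent.T1B.HGeom33.InfBar

noncomputable section

namespace Fermat.Agent.T1B.HGeom33.Bridge

open Fermat.Agent.ES.RED.PlaceValue13 Fermat.Agent.ES.RED.Contract8 Fermat.Agent.ES.RED.TwoCharts8
  Fermat.Agent.ES.RED.GaloisInst21 Fermat.Agent.MW.NCA61.InfPlace
  Fermat.Agent.T1B.HGeom33.InfBar Fermat.Agent.T1B.HGeom33.Values Fermat.Agent.T1B.HGeom33.Chart
  Fermat.Agent.T1B.Hol13

/-- **one place, two names.** -/
theorem inftyBar_eq_inftyPlaceC (κ : Type*) [Field κ] (N : ℕ) [NeZero N] :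
    inftyBar κ N = inftyPlaceC κ N := by
  apply Place.ext
  ext f
  by_cases hf : f = 0
  · subst hf
    simp only [zero_mem]
  · rw [mem_inftyBar_iff κ N hf, mem_inftyPlaceC_iff κ N hf]

variable {N : ℕ} [NeZero N] {A : ValuationSubring Kbar}

section Abstract

variable {r : Place Kbar (FF N) → Place (kA A) ↥(modularFunctionFieldFullC (kA A) N)}
  (hr : IsPlaceReductionAlong A (IsLocalRing.residue ↥A) N r)
  (hinf : r (inftyPlace N) = inftyPlaceC (kA A) N)
  (hmem : ∀ Y : LaurentSeries ↥A, coeffMap A.subtype Y ∈ modularFunctionFieldBar N →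
    coeffMap (IsLocalRing.residue ↥A) Y ∈ modularFunctionFieldFullC (kA A) N)

include hr hinf in
/-- **(poles)** with `inftyPlaceC`. -/
theorem ord_red_nonneg' (Y : LaurentSeries ↥A) (hY : coeffMap A.subtype Y ∈ modularFunctionFieldBar N)
    (hYk : coeffMap (IsLocalRing.residue ↥A) Y ∈ modularFunctionFieldFullC (kA A) N)
    (hreg : RegOff N (⟨coeffMap A.subtype Y, hY⟩ : FF N))
    (Q : Place (kA A) ↥(modularFunctionFieldFullC (kA A) N)) (hQ : Q ≠ inftyPlaceC (kA A) N) :
    0 ≤ Q.ord (⟨coeffMap (IsLocalRing.residue ↥A) Y, hYk⟩ :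
      ↥(modularFunctionFieldFullC (kA A) N)) := by
  rw [← inftyBar_eq_inftyPlaceC] at hinf hQ
  exact ord_red_nonneg hr hinf Y hY hYk hreg Q hQ

include hr hinf in
/-- **(zeros)** with `inftyPlaceC`. -/
theorem ord_red_pos' (Y : LaurentSeries ↥A) (hY : coeffMap A.subtype Y ∈ modularFunctionFieldBar N)
    (hYk : coeffMap (IsLocalRing.residue ↥A) Y ∈ modularFunctionFieldFullC (kA A) N)
    (hne : coeffMap (IsLocalRing.residue ↥A) Y ≠ 0)
    (hreg : RegOff N (⟨coeffMap A.subtype Y, hY⟩ : FF N))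
    (z : Place Kbar (FF N)) (hz : r z ≠ inftyPlaceC (kA A) N)
    (hpos : 0 < z.ord (⟨coeffMap A.subtype Y, hY⟩ : FF N)) :
    0 < (r z).ord (⟨coeffMap (IsLocalRing.residue ↥A) Y, hYk⟩ :
      ↥(modularFunctionFieldFullC (kA A) N)) := by
  rw [← inftyBar_eq_inftyPlaceC] at hinf hz
  exact ord_red_pos hr hinf Y hY hYk hne hreg z hz hpos

variable [IsAlgClosed (kA A)] {xt : ↥(modularFunctionFieldFullC (kA A) N)}
  (hxt : IsGen (kA A) xt)

include hr hinf in
/-- **(G2)** in the shape of the hypothesis `hval` of `HolGeom93.PBCore.pb_of_geom`. -/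
theorem hval (Y : LaurentSeries ↥A) (hY : coeffMap A.subtype Y ∈ modularFunctionFieldBar N)
    (hreg : RegOff N (⟨coeffMap A.subtype Y, hY⟩ : FF N))
    (z : Place Kbar (FF N)) (hz : z ≠ inftyPlace N) (hrz : r z ≠ inftyPlaceC (kA A) N) :
    ∃ (c : ↥A) (hft : (⟨coeffMap (IsLocalRing.residue ↥A) Y, hmem Y hY⟩ :
        ↥(modularFunctionFieldFullC (kA A) N)) ∈ (r z).toValuationSubring),
      valueHom (HasCanDivInst.isGen N) z ⟨⟨coeffMap A.subtype Y, hY⟩, hreg z hz⟩ = (c : Kbar) ∧
      valueHom hxt (r z) ⟨_, hft⟩ = IsLocalRing.residue ↥A c := by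
  rw [← inftyBar_eq_inftyPlaceC] at hinf hrz
  exact exists_value (HasCanDivInst.isGen N) hxt hr hinf hmem Y hY hreg z hrz (hreg z hz)

end Abstract

/-! ### the two-chart model -/

section Model

variable {x : FF N} {hx : IsGen Kbar x}
  (T : TwoCharts A hx ↥(modularFunctionFieldFullC (kA A) N))
  (c1 : CoeffChart (F₀ := modularFunctionFieldFull N) T.S1)
  (hinf : T.S1.InChart (inftyPlace N))
  [IsAlgClosed (kA A)] {xt : ↥(modularFunctionFieldFullC (kA A) N)}
  (hxt : IsGen (kA A) xt)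

include c1 hinf hxt in
/-- **(G1)** in the shape of `HolGeom93.Geom.infty`. -/
theorem infty : T.r (inftyPlace N) = inftyPlaceC (kA A) N := by
  rw [← inftyBar_eq_inftyPlaceC]
  exact r_infty T c1 hinf hxt

include c1 hinf hxt in
/-- **(G4)** in the shape of `HolGeom93.Geom.lift`. -/
theorem lift (u : ↥(modularFunctionFieldFullC (kA A) N)) (hu0 : u ≠ 0)
    (hord : ((u : ↥(modularFunctionFieldFullC (kA A) N)) : LaurentSeries (kA A)).order = 0) :
    ∃ (y : LaurentSeries ↥A) (hy : coeffMap A.subtype y ∈ modularFunctionFieldBar N),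
      coeffMap (IsLocalRing.residue ↥A) y = (u : LaurentSeries (kA A)) ∧
      ∀ z : Place Kbar (FF N), T.r z = inftyPlaceC (kA A) N →
        z.ord (⟨coeffMap A.subtype y, hy⟩ : FF N) = 0 := by
  obtain ⟨y, hy, hred, -, -, hz⟩ := exists_lift T c1 hinf hxt u hu0 hord
  refine ⟨y, hy, hred, fun z hzr => hz z ?_⟩
  rw [inftyBar_eq_inftyPlaceC]
  exact hzr

include c1 hinf hxt in
/-- **(G4)**, with the power series shape of the lift. -/
theorem lift' (u : ↥(modularFunctionFieldFullC (kA A) N)) (hu0 : u ≠ 0)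
    (hord : ((u : ↥(modularFunctionFieldFullC (kA A) N)) : LaurentSeries (kA A)).order = 0) :
    ∃ (y : LaurentSeries ↥A) (hy : coeffMap A.subtype y ∈ modularFunctionFieldBar N),
      coeffMap (IsLocalRing.residue ↥A) y = (u : LaurentSeries (kA A)) ∧
      (∀ n : ℤ, n < 0 → y.coeff n = 0) ∧ IsUnit (y.coeff 0) ∧
      ∀ z : Place Kbar (FF N), T.r z = inftyPlaceC (kA A) N →
        z.ord (⟨coeffMap A.subtype y, hy⟩ : FF N) = 0 := by
  obtain ⟨y, hy, hred, h1, h2, hz⟩ := exists_lift T c1 hinf hxt u hu0 hord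
  refine ⟨y, hy, hred, h1, h2, fun z hzr => hz z ?_⟩
  rw [inftyBar_eq_inftyPlaceC]
  exact hzr

end Model

end Fermat.Agent.T1B.HGeom33.Bridge
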